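import Fermat.Agent.Chebotarev.Trace
import Fermat.Agent.EigenRep.TorsionAction
import Fermat.Agent.EigenRep.Cyclotomic
import Fermat.Agent.EigenRep.Forms
import Fermat.Prelude.Def_CuspForm_HeckeGaloisRepDatum

/-!
# Unramifiedness of the representation carried by a Hecke algebra (S31)

If Frobenius traces of `ρ` are images of Hecke operators, `ρ` is residually absolutely irreducible
and `q ∤ N p`, then `ρ` is trivial on inertia at `q`: modulo `p ^ M` the operators `T_ℓ` and the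
residue of `ℓ` only depend on the action of Frobenius on `p ^ M` torsion and roots of unity, and
these do not see inertia at `q`.
-/

set_option autoImplicit false

noncomputable section

namespace Fermat.Agent.HeckeUnramified

open IsLocalRing Fermat.Agent.EigenRep Matrix
open Fermat.Agent.Chebotarev (exists_level_trace_congr trace_eq_of_charpoly
  eq_one_of_forall_trace_mul)

/-- Inside a finitely generated module over `ℤ`, divisibility by a high power of `p` in the
ambient module gives divisibility by a given power in the submodule. -/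
lemma exists_pow_smul_submodule {d : ℕ} (p : ℕ)
    (N : Submodule ℤ (Matrix (Fin d) (Fin d) ℤ)) (n : ℕ) :
    ∃ M : ℕ, ∀ m ∈ N, (∀ i j, ((p : ℤ) ^ M ∣ m i j)) → ∃ y ∈ N, m = ((p : ℤ) ^ n) • y := by
  obtain ⟨k, hk⟩ := Ideal.exists_pow_inf_eq_pow_smul (Ideal.span {(p : ℤ)}) N
  refine ⟨n + k, fun m hm hdiv ↦ ?_⟩
  choose c hc using hdiv
  have hmem : m ∈ (Ideal.span {(p : ℤ)}) ^ (n + k) •
      (⊤ : Submodule ℤ (Matrix (Fin d) (Fin d) ℤ)) ⊓ N := by
    refine ⟨?_, hm⟩
    have hm' : m = ((p : ℤ) ^ (n + k)) • Matrix.of c := by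
      ext i j
      simp [hc i j]
    rw [hm']
    exact Submodule.smul_mem_smul (Ideal.pow_mem_pow (Ideal.mem_span_singleton_self _) _)
      Submodule.mem_top
  rw [hk (n + k) (Nat.le_add_left k n), Nat.add_sub_cancel, Ideal.span_singleton_pow,
    Submodule.ideal_span_singleton_smul] at hmem
  obtain ⟨y, hy, hym⟩ := hmem
  exact ⟨y, hy.2, hym.symm⟩

/-- A residually absolutely irreducible representation whose Frobenius traces are given by a map `π`
out of the Hecke algebra is unramified outside `S`, given the representations of level `N`. -/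
theorem isUnramifiedAt_of_repInputs {p N : ℕ} [Fact p.Prime] [NeZero N] (R : RepInputs N p)
    {S : Set ℕ} (hS : S.Finite) (hpS : p ∈ S) (hNS : ∀ q : ℕ, q.Prime → q ∣ N → q ∈ S)
    {T : Type} [CommRing T] [IsLocalRing T] [IsNoetherianRing T] (hpT : (p : T) ∈ maximalIdeal T)
    (π : CuspForm.heckeAlgebra N 2 S →+* T) (ρ : GaloisRepAdic T)
    (hres : ρ.residual.IsAbsolutelyIrreducible)
    (hfrob : ∀ (ℓ : ℕ) (hℓ : ℓ.Prime) (hℓN : ¬ ℓ ∣ N) (hℓS : ℓ ∉ S),
      ∀ A : ValuationSubring (AlgebraicClosure ℚ), A.LiesOverPrime ℓ →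
        ∀ σ, A.IsFrobeniusAt σ ℓ → ρ.trace σ = π (CuspForm.heckeAlgebra.T hℓ hℓN hℓS))
    {q : ℕ} (hq : q.Prime) (hqS : q ∉ S) : ρ.IsUnramifiedAt q := by
  classical
  intro P hP σ hσ
  refine eq_one_of_forall_trace_mul ρ hres σ fun g ↦ ?_
  rw [← sub_eq_zero, ← Submodule.mem_bot T,
    ← Ideal.iInf_pow_eq_bot_of_isLocalRing _ (maximalIdeal.isMaximal T).ne_top, Submodule.mem_iInf]
  intro n
  have hnot : ∀ r : ℕ, r.Prime → r ∉ S → ¬ r ∣ N * p := by
    intro r hr hrS h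
    rcases hr.dvd_mul.mp h with h | h
    · exact hrS (hNS r hr h)
    · exact hrS ((Nat.prime_dvd_prime_iff_eq hr Fact.out).mp h ▸ hpS)
  set fam := matFamily R.model S
  obtain ⟨M, hM⟩ := exists_pow_smul_submodule p (Subalgebra.toSubmodule (matAlg fam)) n
  obtain ⟨L₁, hL₁, hc₁⟩ := exists_level_trace_congr ρ n
  obtain ⟨L₂, hL₂, hc₂⟩ := exists_level_galMat R.model R.smooth M
  obtain ⟨L₃, hL₃, hc₃⟩ := exists_level_epsilon (p := p) M
  -- a Frobenius element near any `g`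
  have happ : ∀ g : AlgebraicClosure ℚ ≃ₐ[ℚ] AlgebraicClosure ℚ,
      ∃ (ℓ : ℕ) (hℓ : ℓ.Prime) (hℓS : ℓ ∉ S),
        ρ.trace g - π (CuspForm.heckeAlgebra.T hℓ (fun h ↦ hℓS (hNS ℓ hℓ h)) hℓS)
          ∈ maximalIdeal T ^ n ∧
        matMod p R.model.d M (galMat R.model g * galMat R.model g
          - heckeMat R.model ⟨ℓ, hℓ⟩ * galMat R.model g
          + (ℓ : Matrix (Fin R.model.d) (Fin R.model.d) ℤ_[p])) = 0 ∧
        (ℓ : ZMod (p ^ M)) = PadicInt.toZModPow M (epsilonPadic p g : ℤ_[p]) := by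
    intro g
    obtain ⟨ℓ, hℓ, hℓS, A, hA, τ, hτ, hag⟩ :=
      Chebotarev.exists_isFrobeniusAt_eqOn (L₁ ⊔ L₂ ⊔ L₃) g hS.toFinset
    rw [Set.Finite.mem_toFinset] at hℓS
    have hle : ∀ x, x ∈ L₁ ∨ x ∈ L₂ ∨ x ∈ L₃ → τ x = g x := by
      rintro x (h | h | h)
      · exact hag x ((le_sup_left.trans le_sup_left : L₁ ≤ L₁ ⊔ L₂ ⊔ L₃) h)
      · exact hag x ((le_sup_right.trans le_sup_left : L₂ ≤ L₁ ⊔ L₂ ⊔ L₃) h)
      · exact hag x ((le_sup_right : L₃ ≤ L₁ ⊔ L₂ ⊔ L₃) h)
    have hfix : ∀ x, τ x = g x → (g⁻¹ * τ) x = x := fun x hx ↦ by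
      rw [AlgEquiv.mul_apply, hx]
      exact g.symm_apply_apply x
    have hgal : matMod p R.model.d M (galMat R.model τ) = matMod p R.model.d M (galMat R.model g) := by
      conv_lhs => rw [← mul_inv_cancel_left g τ]
      rw [map_mul, map_mul, hc₂ _ fun a ha ↦ hfix a (hle a (Or.inr (Or.inl ha))), mul_one]
    have heps : PadicInt.toZModPow M (epsilonPadic p τ : ℤ_[p])
        = PadicInt.toZModPow M (epsilonPadic p g : ℤ_[p]) := by
      conv_lhs => rw [← mul_inv_cancel_left g τ]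
      rw [map_mul, Units.val_mul, map_mul,
        hc₃ _ fun a ha ↦ hfix a (hle a (Or.inr (Or.inr ha))), mul_one]
    refine ⟨ℓ, hℓ, hℓS, ?_, ?_, ?_⟩
    · rw [← hfrob ℓ hℓ _ hℓS A hA τ hτ, ← neg_sub]
      exact neg_mem (hc₁ g τ fun x hx ↦ hle x (Or.inl hx))
    · have h := congrArg (matMod p R.model.d M)
        (galMat_frobenius R.model R.es hℓ (hnot ℓ hℓ hℓS) hA hτ)
      simp only [map_add, map_sub, map_mul, map_zero, hgal] at h ⊢
      exact h
    · rw [← heps, toZModPow_epsilon_frobenius hℓ (fun h ↦ hℓS (h ▸ hpS)) hA hτ M]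
  obtain ⟨ℓ, hℓ, hℓS, htr, hrel, hdet⟩ := happ g
  obtain ⟨ℓ', hℓ', hℓ'S, htr', hrel', hdet'⟩ := happ (g * σ)
  -- inertia at `q` is invisible
  have hσ1 : galMat R.model σ = 1 := galMat_inertia R.model R.es hq (hnot q hq hqS) hP hσ
  rw [map_mul, hσ1, mul_one] at hrel'
  rw [map_mul, epsilon_inertia hq (fun h ↦ hqS (h ▸ hpS)) hP hσ, mul_one, ← hdet] at hdet'
  set G := matMod p R.model.d M (galMat R.model g)
  have hG : G * matMod p R.model.d M (galMat R.model g⁻¹) = 1 := by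
    rw [← map_mul, ← map_mul, mul_inv_cancel, map_one, map_one]
  have hdiff : matMod p R.model.d M (heckeMat R.model ⟨ℓ, hℓ⟩)
      = matMod p R.model.d M (heckeMat R.model ⟨ℓ', hℓ'⟩) := by
    simp only [map_add, map_sub, map_mul, map_natCast] at hrel hrel'
    have hcast : ((ℓ : ℕ) : Matrix (Fin R.model.d) (Fin R.model.d) (ZMod (p ^ M)))
        = ((ℓ' : ℕ) : Matrix (Fin R.model.d) (Fin R.model.d) (ZMod (p ^ M))) := by
      rw [← map_natCast (Matrix.scalar (Fin R.model.d)) ℓ,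
        ← map_natCast (Matrix.scalar (Fin R.model.d)) ℓ', hdet']
    rw [← hcast] at hrel'
    have h : matMod p R.model.d M (heckeMat R.model ⟨ℓ, hℓ⟩) * G
        = matMod p R.model.d M (heckeMat R.model ⟨ℓ', hℓ'⟩) * G :=
      sub_right_injective (add_right_cancel (hrel.trans hrel'.symm))
    have := congrArg (· * matMod p R.model.d M (galMat R.model g⁻¹)) h
    simpa only [mul_assoc, hG, mul_one] using this
  -- hence the two Hecke operators agree modulo a high power of `p`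
  set a : matAlg fam := matGen fam ⟨⟨ℓ, hℓ⟩, hℓS⟩ - matGen fam ⟨⟨ℓ', hℓ'⟩, hℓ'S⟩
  have hdiv : ∀ i j, ((p : ℤ) ^ M ∣ (a : Matrix (Fin R.model.d) (Fin R.model.d) ℤ) i j) := by
    intro i j
    have h0 := hdiff
    replace h0 := ((matMod_heckeMat R.model M ⟨ℓ, hℓ⟩).symm.trans h0).trans
      (matMod_heckeMat R.model M ⟨ℓ', hℓ'⟩)
    have h := congrFun (congrFun h0 i) j
    rw [Matrix.map_apply, Matrix.map_apply,
      ZMod.intCast_eq_intCast_iff_dvd_sub, Nat.cast_pow] at h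
    rw [dvd_sub_comm] at h
    exact h
  obtain ⟨y, hy, hay⟩ := hM _ a.2 hdiv
  have hay' : a = ((p : ℤ) ^ n) • (⟨y, hy⟩ : matAlg fam) := Subtype.ext hay
  have hπ : π (CuspForm.heckeAlgebra.T hℓ (fun h ↦ hℓS (hNS ℓ hℓ h)) hℓS)
      - π (CuspForm.heckeAlgebra.T hℓ' (fun h ↦ hℓ'S (hNS ℓ' hℓ' h)) hℓ'S) ∈ maximalIdeal T ^ n := by
    rw [← map_sub, ← toForms_T R.model, ← toForms_T R.model, ← map_sub]
    change π (toForms R.model S a) ∈ _
    rw [hay', map_zsmul, map_zsmul, zsmul_eq_mul]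
    refine Ideal.mul_mem_right _ _ ?_
    push_cast
    exact Ideal.pow_mem_pow hpT n
  have h := Ideal.sub_mem _ (Ideal.sub_mem _ htr' htr) hπ
  convert h using 1
  ring

end Fermat.Agent.HeckeUnramified

end
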