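import Fermat.Agent.HeckeUnramified.Basic
import Fermat.Prelude.Def_CuspForm_HeckeGaloisRepDatum

/-!
# S31 from the torsion inputs
-/

set_option autoImplicit false

noncomputable section

namespace Fermat.Agent.HeckeUnramified

variable {p N : ℕ} [NeZero N] {S : Finset ℕ}
  {𝒪 : Type} [CommRing 𝒪] [IsDomain 𝒪] [IsDiscreteValuationRing 𝒪]
  [IsAdicComplete (IsLocalRing.maximalIdeal 𝒪) 𝒪]
  {θ : CuspForm.heckeAlgebra N 2 (↑S : Set ℕ) →+* IsLocalRing.ResidueField 𝒪}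
  {T : Type} [CommRing T] [IsLocalRing T] [IsNoetherianRing T]
  [IsAdicComplete (IsLocalRing.maximalIdeal T) T] [Algebra 𝒪 T] [IsLocalHom (algebraMap 𝒪 T)]
  [Module.Finite 𝒪 T] [Module.Free 𝒪 T]

/-- The conclusion of S31, given the inputs on the torsion of `J₀(N)`. -/
theorem isUnramifiedAt_datum [Fact p.Prime] (R : EigenRep.RepInputs N p)
    (hp𝒪 : (p : 𝒪) ∈ IsLocalRing.maximalIdeal 𝒪) (hpS : p ∈ S)
    (hNS : ∀ q : ℕ, q.Prime → q ∣ N → q ∈ S)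
    (H : CuspForm.HeckeGaloisRepDatum N (↑S : Set ℕ) 𝒪 θ T)
    (q : ℕ) (hq : q.Prime) (hqS : q ∉ S) :
    H.ρ.IsUnramifiedAt q := by
  have hpT : (p : T) ∈ IsLocalRing.maximalIdeal T := by
    rw [← map_natCast (algebraMap 𝒪 T) p]
    exact map_nonunit (algebraMap 𝒪 T) _ hp𝒪
  refine isUnramifiedAt_of_repInputs R S.finite_toSet (Finset.mem_coe.mpr hpS)
    (fun r hr hrN ↦ Finset.mem_coe.mpr (hNS r hr hrN)) hpT H.π H.ρ H.residual_absIrr ?_ hq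
    (fun h ↦ hqS (Finset.mem_coe.mp h))
  intro ℓ hℓ hℓN hℓS A hA σ hσ
  exact Chebotarev.trace_eq_of_charpoly H.ρ.finrank_eq (H.charpoly_frob ℓ hℓ hℓN hℓS A hA σ hσ)

end Fermat.Agent.HeckeUnramified

end
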